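import Mathlib

set_option autoImplicit false

namespace Fermat.Agent.S11_helper16

open NumberField IsCyclotomicExtension Polynomial Ideal RingOfIntegers

theorem le_orderOf_of_forall {M : Type*} [Monoid M] {x : M} (m N : ℕ) (hN : 0 < N)
    (hx : x ^ N = 1) (h : ∀ k < m, 0 < k → x ^ k ≠ 1) : m ≤ orderOf x := by
  by_contra hlt
  rw [not_le] at hlt
  have hpos : 0 < orderOf x := orderOf_pos_iff.mpr (isOfFinOrder_iff_pow_eq_one.mpr ⟨N, hN, hx⟩)
  exact h _ hlt hpos (pow_orderOf_eq_one x)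

section generic

variable (p q : ℕ) [hp : Fact p.Prime] [hq : Fact q.Prime]
  (K : Type*) [Field K] [NumberField K] [IsCyclotomicExtension {p} ℚ K]

/-- Kummer-Dedekind: if the monic `Q` is irreducible modulo `q` and divides `Φ_p` modulo `q`,
then `(q, Q(ζ))` is a prime of `𝓞 K` above `q`. -/
theorem span_pair_mem_primesOver_of_factor (Q : ℤ[X])
    (hmonic : (Q.map (Int.castRingHom (ZMod q))).Monic)
    (hirr : Irreducible (Q.map (Int.castRingHom (ZMod q))))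
    (hdvd : Q.map (Int.castRingHom (ZMod q)) ∣ cyclotomic p (ZMod q)) :
    span {(q : 𝓞 K), aeval (zeta_spec p ℚ K).toInteger Q} ∈
      primesOver (span {(q : ℤ)}) (𝓞 K) := by
  classical
  set θ : 𝓞 K := (zeta_spec p ℚ K).toInteger with hθ
  have h₁ : ¬ q ∣ exponent θ := by
    rw [exponent_eq_one_iff.mpr <| Rat.adjoin_singleton_eq_top (zeta_spec p ℚ K)]
    exact hq.out.not_dvd_one
  have hmin : minpoly ℤ θ = cyclotomic p ℤ := by
    have h := cyclotomic_eq_minpoly (zeta_spec p ℚ K) hp.out.pos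
    rw [h, ← RingOfIntegers.minpoly_coe θ]
    rfl
  have hQ : Q.map (Int.castRingHom (ZMod q)) ∈ monicFactorsMod θ q := by
    rw [Multiset.mem_toFinset, Polynomial.mem_normalizedFactors_iff
      (map_monic_ne_zero (minpoly.monic θ.isIntegral))]
    refine ⟨hirr, hmonic, ?_⟩
    rw [hmin, map_cyclotomic]
    exact hdvd
  have h := Ideal.primesOverSpanEquivMonicFactorsMod_symm_apply_eq_span h₁ hQ
  rw [← h]
  exact ((Ideal.primesOverSpanEquivMonicFactorsMod h₁).symm ⟨_, hQ⟩).2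

/-- Kummer-Dedekind for a degree one prime: if `a` is a root of `Φ_p` modulo `q`, then
`(q, ζ - a)` is a prime of `𝓞 K` above `q`. -/
theorem span_pair_mem_primesOver (a : ℤ)
    (ha : ∑ i ∈ Finset.range p, ((a : ZMod q)) ^ i = 0) :
    span {(q : 𝓞 K), (zeta_spec p ℚ K).toInteger - (a : 𝓞 K)} ∈
      primesOver (span {(q : ℤ)}) (𝓞 K) := by
  have hmap : (X - C a : ℤ[X]).map (Int.castRingHom (ZMod q)) = X - C (a : ZMod q) := by
    simp
  have h := span_pair_mem_primesOver_of_factor p q K (X - C a)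
    (by rw [hmap]; exact monic_X_sub_C _) (by rw [hmap]; exact irreducible_X_sub_C _)
    (by
      rw [hmap, dvd_iff_isRoot, cyclotomic_prime, IsRoot.def, eval_finsetSum]
      simpa using ha)
  simpa using h

/-- A prime above `q` that is principal, given an explicit generator `α` of `(q, Q(ζ))`. -/
theorem exists_principal_of_generator_factor (Q : ℤ[X])
    (hmonic : (Q.map (Int.castRingHom (ZMod q))).Monic)
    (hirr : Irreducible (Q.map (Int.castRingHom (ZMod q))))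
    (hdvd : Q.map (Int.castRingHom (ZMod q)) ∣ cyclotomic p (ZMod q))
    (α β γ u v : 𝓞 K) (h1 : α * β = (q : 𝓞 K))
    (h2 : α * γ = aeval (zeta_spec p ℚ K).toInteger Q)
    (h3 : α = (q : 𝓞 K) * u + (aeval (zeta_spec p ℚ K).toInteger Q) * v) :
    ∃ P ∈ primesOver (span {(q : ℤ)}) (𝓞 K), Submodule.IsPrincipal P := by
  refine ⟨_, span_pair_mem_primesOver_of_factor p q K Q hmonic hirr hdvd, ⟨α, ?_⟩⟩
  rw [submodule_span_eq]
  apply le_antisymm
  · rw [span_le]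
    rintro x (rfl | rfl)
    · exact mem_span_singleton.mpr ⟨β, h1.symm⟩
    · exact mem_span_singleton.mpr ⟨γ, h2.symm⟩
  · rw [span_singleton_le_iff_mem, h3]
    exact add_mem (mul_mem_right _ _ (subset_span (by simp)))
      (mul_mem_right _ _ (subset_span (by simp)))

/-- A prime above `q` that is principal, given an explicit generator `α` of `(q, ζ - a)`. -/
theorem exists_principal_of_generator (a : ℤ)
    (ha : ∑ i ∈ Finset.range p, ((a : ZMod q)) ^ i = 0)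
    (α β γ u v : 𝓞 K) (h1 : α * β = (q : 𝓞 K))
    (h2 : α * γ = (zeta_spec p ℚ K).toInteger - (a : 𝓞 K))
    (h3 : α = (q : 𝓞 K) * u + ((zeta_spec p ℚ K).toInteger - (a : 𝓞 K)) * v) :
    ∃ P ∈ primesOver (span {(q : ℤ)}) (𝓞 K), Submodule.IsPrincipal P := by
  refine ⟨_, span_pair_mem_primesOver p q K a ha, ⟨α, ?_⟩⟩
  rw [submodule_span_eq]
  apply le_antisymm
  · rw [span_le]
    rintro x (rfl | rfl)
    · exact mem_span_singleton.mpr ⟨β, h1.symm⟩
    · exact mem_span_singleton.mpr ⟨γ, h2.symm⟩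
  · rw [span_singleton_le_iff_mem, h3]
    exact add_mem (mul_mem_right _ _ (subset_span (by simp)))
      (mul_mem_right _ _ (subset_span (by simp)))

/-- The prime above `p` is principal. -/
theorem exists_principal_self :
    ∃ P ∈ primesOver (span {(p : ℤ)}) (𝓞 K), Submodule.IsPrincipal P := by
  obtain ⟨⟨P, hP⟩⟩ := Ideal.nonempty_primesOver (span {(p : ℤ)}) (S := 𝓞 K)
  refine ⟨P, hP, ?_⟩
  have := hP.1
  have := hP.2
  rw [Rat.eq_span_zeta_sub_one_of_liesOver' p K (zeta_spec p ℚ K) P]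
  exact ⟨⟨_, rfl⟩⟩

/-- For `q ≠ p` there is a prime above `q` with inertia degree the order of `q` mod `p`. -/
theorem exists_inertiaDeg_eq (hqp : q ≠ p) :
    ∃ P ∈ primesOver (span {(q : ℤ)}) (𝓞 K), P.inertiaDeg ℤ = orderOf (q : ZMod p) := by
  obtain ⟨⟨P, hP⟩⟩ := Ideal.nonempty_primesOver (span {(q : ℤ)}) (S := 𝓞 K)
  refine ⟨P, hP, ?_⟩
  have := hP.1
  have := hP.2
  exact Rat.inertiaDeg_eq_of_not_dvd q K P
    (fun h => hqp ((Nat.prime_dvd_prime_iff_eq hq.out hp.out).mp h))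

end generic

section eleven

variable (K : Type*) [Field K] [NumberField K] [IsCyclotomicExtension {11} ℚ K]

theorem minkowski_eleven_lt :
    (4 / Real.pi) ^ InfinitePlace.nrComplexPlaces K *
      ((Module.finrank ℚ K).factorial / (Module.finrank ℚ K) ^ (Module.finrank ℚ K) *
        √|(NumberField.discr K : ℝ)|) < 59 := by
  have : Fact (Nat.Prime 11) := ⟨by norm_num⟩
  rw [Rat.discr_prime 11 K, IsCyclotomicExtension.finrank (n := 11) K
    (cyclotomic.irreducible_rat (by norm_num)), Rat.nrComplexPlaces_eq_totient_div_two 11,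
    Nat.totient_prime (by norm_num)]
  have hfact : ((10 : ℕ).factorial : ℝ) = 3628800 := by
    norm_num [Nat.factorial]
  have habs : |(((-1 : ℤ) ^ ((11 - 1) / 2) * ((11 : ℕ) : ℤ) ^ (11 - 2) : ℤ) : ℝ)| = 11 ^ 9 := by
    norm_num
  have h1 : (4 / Real.pi) < 4 / 3.1415 := by
    gcongr
    exact Real.pi_gt_d4
  have h2 : √((11 : ℝ) ^ 9) < 48558.8 := by
    rw [Real.sqrt_lt' (by norm_num)]
    norm_num
  have h0 : (0 : ℝ) < 4 / Real.pi := by positivity
  simp only [Nat.add_one_sub_one, Nat.reduceSub, Nat.reduceDiv, hfact, habs]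
  calc (4 / Real.pi) ^ 5 * (3628800 / ((10 : ℕ) : ℝ) ^ 10 * √((11 : ℝ) ^ 9))
      < (4 / 3.1415) ^ 5 * (3628800 / ((10 : ℕ) : ℝ) ^ 10 * 48558.8) := by
        gcongr
    _ < 59 := by norm_num

theorem order_bound_eleven (q : ℕ) (hq : q.Prime) (h58 : q ≤ 58) (h11 : q ≠ 11) (h23 : q ≠ 23) :
    58 < q ^ orderOf (q : ZMod 11) := by
  have hq2 := hq.two_le
  have small : ∀ m : ℕ, 58 < q ^ m → (∀ k < m, 0 < k → ((q : ZMod 11)) ^ k ≠ 1) →
      ((q : ZMod 11)) ^ 10 = 1 → 58 < q ^ orderOf (q : ZMod 11) := by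
    intro m hm h1 h2
    exact lt_of_lt_of_le hm (Nat.pow_le_pow_right (by omega)
      (le_orderOf_of_forall m 10 (by norm_num) h2 h1))
  interval_cases q
  all_goals first
    | exact absurd rfl h11
    | exact absurd rfl h23
    | (norm_num at hq; done)
    | exact small 6 (by norm_num) (by decide) (by decide)
    | exact small 4 (by norm_num) (by decide) (by decide)
    | exact small 2 (by norm_num) (by decide) (by decide)

theorem root_eleven_twentythree :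
    ∑ i ∈ Finset.range 11, (((4 : ℤ) : ZMod 23)) ^ i = 0 := by decide

theorem eleven_pid : IsPrincipalIdealRing (𝓞 K) := by
  have : Fact (Nat.Prime 11) := ⟨by norm_num⟩
  have : IsGalois ℚ K := IsCyclotomicExtension.isGalois {11} ℚ K
  apply isPrincipalIdealRing_of_isPrincipal_of_lt_or_isPrincipal_of_mem_primesOver_of_mem_Icc
  intro q hq hqprime
  have hM := Nat.lt_succ_iff.mp ((Nat.floor_lt' (by norm_num)).mpr (minkowski_eleven_lt K))
  have hq58 : q ≤ 58 := (Finset.mem_Icc.mp hq).2.trans hM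
  have : Fact q.Prime := ⟨hqprime⟩
  by_cases h11 : q = 11
  · subst h11
    obtain ⟨P, hP, hprin⟩ := exists_principal_self 11 K
    exact ⟨P, hP, Or.inr hprin⟩
  by_cases h23 : q = 23
  · subst h23
    set ζ : 𝓞 K := (zeta_spec 11 ℚ K).toInteger with hζdef
    have hsum : 1 + ζ + ζ ^ 2 + ζ ^ 3 + ζ ^ 4 + ζ ^ 5 + ζ ^ 6 + ζ ^ 7 + ζ ^ 8 + ζ ^ 9 + ζ ^ 10 = 0 := by
      have h := (zeta_spec 11 ℚ K).toInteger_isPrimitiveRoot.geom_sum_eq_zero (by norm_num)
      simpa [Finset.sum_range_succ] using h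
    obtain ⟨P, hP, hprin⟩ := exists_principal_of_generator 11 23 K 4 root_eleven_twentythree
      (1 + ζ + ζ ^ 3)
      ((-2) + (-14)*ζ + (-17)*ζ^2 + (-12)*ζ^3 + (-5)*ζ^4 + (-9)*ζ^5 + (-10)*ζ^6 + (-16)*ζ^7
        + (-6)*ζ^8 + (-15)*ζ^9)
      ((1) + (3)*ζ + (3)*ζ^2 + (2)*ζ^3 + (1)*ζ^4 + (2)*ζ^5 + (2)*ζ^6 + (3)*ζ^7 + (1)*ζ^8
        + (3)*ζ^9)
      3 (ζ ^ 2 + 4 * ζ + 17)
      (by push_cast; linear_combination ((-25) + (9)*ζ + (-15)*ζ^2) * hsum)
      (by push_cast; linear_combination ((5) + (-2)*ζ + (3)*ζ^2) * hsum)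
      (by push_cast; ring)
    exact ⟨P, hP, Or.inr hprin⟩
  · obtain ⟨P, hP, hdeg⟩ := exists_inertiaDeg_eq 11 q K h11
    refine ⟨P, hP, Or.inl ?_⟩
    rw [hdeg]
    exact lt_of_le_of_lt hM (order_bound_eleven q hqprime hq58 h11 h23)

end eleven

section seven

variable (K : Type*) [Field K] [NumberField K] [IsCyclotomicExtension {7} ℚ K]

theorem minkowski_seven_lt :
    (4 / Real.pi) ^ InfinitePlace.nrComplexPlaces K *
      ((Module.finrank ℚ K).factorial / (Module.finrank ℚ K) ^ (Module.finrank ℚ K) *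
        √|(NumberField.discr K : ℝ)|) < 5 := by
  have : Fact (Nat.Prime 7) := ⟨by norm_num⟩
  rw [Rat.discr_prime 7 K, IsCyclotomicExtension.finrank (n := 7) K
    (cyclotomic.irreducible_rat (by norm_num)), Rat.nrComplexPlaces_eq_totient_div_two 7,
    Nat.totient_prime (by norm_num)]
  have hfact : ((6 : ℕ).factorial : ℝ) = 720 := by
    norm_num [Nat.factorial]
  have habs : |(((-1 : ℤ) ^ ((7 - 1) / 2) * ((7 : ℕ) : ℤ) ^ (7 - 2) : ℤ) : ℝ)| = 7 ^ 5 := by
    norm_num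
  have h1 : (4 / Real.pi) < 4 / 3.1415 := by
    gcongr
    exact Real.pi_gt_d4
  have h2 : √((7 : ℝ) ^ 5) < 129.65 := by
    rw [Real.sqrt_lt' (by norm_num)]
    norm_num
  have h0 : (0 : ℝ) < 4 / Real.pi := by positivity
  simp only [Nat.add_one_sub_one, Nat.reduceSub, Nat.reduceDiv, hfact, habs]
  calc (4 / Real.pi) ^ 3 * (720 / ((6 : ℕ) : ℝ) ^ 6 * √((7 : ℝ) ^ 5))
      < (4 / 3.1415) ^ 3 * (720 / ((6 : ℕ) : ℝ) ^ 6 * 129.65) := by
        gcongr
    _ < 5 := by norm_num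

theorem order_bound_seven (q : ℕ) (hq : q.Prime) (h4 : q ≤ 4) :
    4 < q ^ orderOf (q : ZMod 7) := by
  have hq2 := hq.two_le
  have small : ∀ m : ℕ, 4 < q ^ m → (∀ k < m, 0 < k → ((q : ZMod 7)) ^ k ≠ 1) →
      ((q : ZMod 7)) ^ 6 = 1 → 4 < q ^ orderOf (q : ZMod 7) := by
    intro m hm h1 h2
    exact lt_of_lt_of_le hm (Nat.pow_le_pow_right (by omega)
      (le_orderOf_of_forall m 6 (by norm_num) h2 h1))
  interval_cases q
  all_goals first
    | (norm_num at hq; done)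
    | exact small 3 (by norm_num) (by decide) (by decide)

theorem seven_pid : IsPrincipalIdealRing (𝓞 K) := by
  have : Fact (Nat.Prime 7) := ⟨by norm_num⟩
  have : IsGalois ℚ K := IsCyclotomicExtension.isGalois {7} ℚ K
  apply isPrincipalIdealRing_of_isPrincipal_of_lt_or_isPrincipal_of_mem_primesOver_of_mem_Icc
  intro q hq hqprime
  have hM := Nat.lt_succ_iff.mp ((Nat.floor_lt' (by norm_num)).mpr (minkowski_seven_lt K))
  have hq4 : q ≤ 4 := (Finset.mem_Icc.mp hq).2.trans hM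
  have : Fact q.Prime := ⟨hqprime⟩
  obtain ⟨P, hP, hdeg⟩ := exists_inertiaDeg_eq 7 q K (by omega)
  refine ⟨P, hP, Or.inl ?_⟩
  rw [hdeg]
  exact lt_of_le_of_lt hM (order_bound_seven q hqprime hq4)

end seven

section thirteen

variable (K : Type*) [Field K] [NumberField K] [IsCyclotomicExtension {13} ℚ K]

theorem minkowski_thirteen_lt :
    (4 / Real.pi) ^ InfinitePlace.nrComplexPlaces K *
      ((Module.finrank ℚ K).factorial / (Module.finrank ℚ K) ^ (Module.finrank ℚ K) *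
        √|(NumberField.discr K : ℝ)|) < 307 := by
  have : Fact (Nat.Prime 13) := ⟨by norm_num⟩
  rw [Rat.discr_prime 13 K, IsCyclotomicExtension.finrank (n := 13) K
    (cyclotomic.irreducible_rat (by norm_num)), Rat.nrComplexPlaces_eq_totient_div_two 13,
    Nat.totient_prime (by norm_num)]
  have hfact : ((12 : ℕ).factorial : ℝ) = 479001600 := by
    norm_num [Nat.factorial]
  have habs : |(((-1 : ℤ) ^ ((13 - 1) / 2) * ((13 : ℕ) : ℤ) ^ (13 - 2) : ℤ) : ℝ)| = 13 ^ 11 := by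
    norm_num
  have h1 : (4 / Real.pi) < 4 / 3.1415 := by
    gcongr
    exact Real.pi_gt_d4
  have h2 : √((13 : ℝ) ^ 11) < 1338716.7 := by
    rw [Real.sqrt_lt' (by norm_num)]
    norm_num
  have h0 : (0 : ℝ) < 4 / Real.pi := by positivity
  simp only [Nat.add_one_sub_one, Nat.reduceSub, Nat.reduceDiv, hfact, habs]
  calc (4 / Real.pi) ^ 6 * (479001600 / ((12 : ℕ) : ℝ) ^ 12 * √((13 : ℝ) ^ 11))
      < (4 / 3.1415) ^ 6 * (479001600 / ((12 : ℕ) : ℝ) ^ 12 * 1338716.7) := by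
        gcongr
    _ < 307 := by norm_num

theorem order_bound_thirteen (q : ℕ) (hq : q.Prime) (h306 : q ≤ 306) (h13 : q ≠ 13)
    (h3 : q ≠ 3) (h53 : q ≠ 53) (h79 : q ≠ 79) (h131 : q ≠ 131) (h157 : q ≠ 157) :
    306 < q ^ orderOf (q : ZMod 13) := by
  have hq2 := hq.two_le
  have small : ∀ m : ℕ, 306 < q ^ m → (∀ k < m, 0 < k → ((q : ZMod 13)) ^ k ≠ 1) →
      ((q : ZMod 13)) ^ 12 = 1 → 306 < q ^ orderOf (q : ZMod 13) := by
    intro m hm h1 h2
    exact lt_of_lt_of_le hm (Nat.pow_le_pow_right (by omega)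
      (le_orderOf_of_forall m 12 (by norm_num) h2 h1))
  interval_cases q
  all_goals first
    | exact absurd rfl h13
    | exact absurd rfl h3
    | exact absurd rfl h53
    | exact absurd rfl h79
    | exact absurd rfl h131
    | exact absurd rfl h157
    | (norm_num at hq; done)
    | exact small 9 (by decide) (by decide) (by decide)
    | exact small 4 (by decide) (by decide) (by decide)
    | exact small 3 (by decide) (by decide) (by decide)
    | exact small 2 (by decide) (by decide) (by decide)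

theorem root_thirteen_53 : ∑ i ∈ Finset.range 13, (((-17 : ℤ) : ZMod 53)) ^ i = 0 := by decide
theorem root_thirteen_79 : ∑ i ∈ Finset.range 13, (((-15 : ℤ) : ZMod 79)) ^ i = 0 := by decide
theorem root_thirteen_131 : ∑ i ∈ Finset.range 13, (((-51 : ℤ) : ZMod 131)) ^ i = 0 := by decide
theorem root_thirteen_157 : ∑ i ∈ Finset.range 13, (((75 : ℤ) : ZMod 157)) ^ i = 0 := by decide

/-- The cubic `X^3 - X - 1` is an irreducible factor of `Φ₁₃` modulo `3`. -/
theorem cubic_factor_thirteen_three :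
    ((X ^ 3 - (X + 1) : ℤ[X]).map (Int.castRingHom (ZMod 3))).Monic ∧
    Irreducible ((X ^ 3 - (X + 1) : ℤ[X]).map (Int.castRingHom (ZMod 3))) ∧
    (X ^ 3 - (X + 1) : ℤ[X]).map (Int.castRingHom (ZMod 3)) ∣ cyclotomic 13 (ZMod 3) := by
  have hmap : (X ^ 3 - (X + 1) : ℤ[X]).map (Int.castRingHom (ZMod 3)) =
      X ^ 3 - (X + 1) := by simp
  have hmonic : (X ^ 3 - (X + 1) : (ZMod 3)[X]).Monic := by
    apply monic_X_pow_sub
    rw [show (X + 1 : (ZMod 3)[X]) = X + C 1 by simp, degree_X_add_C]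
    norm_num
  have hdeg : (X ^ 3 - (X + 1) : (ZMod 3)[X]).natDegree = 3 := by
    compute_degree!
  refine ⟨by rw [hmap]; exact hmonic, ?_, ?_⟩
  · rw [hmap]
    apply irreducible_of_degree_le_three_of_not_isRoot
    · rw [hdeg]; decide
    · intro x
      rw [IsRoot.def, eval_sub, eval_pow, eval_add, eval_X, eval_one]
      revert x
      decide
  · have hZ : cyclotomic 13 ℤ = (X ^ 3 - (X + 1) : ℤ[X]) *
        ((20) + (15)*X + (11)*X^2 + (8)*X^3 + (6)*X^4 + (4)*X^5 + (3)*X^6 + (2)*X^7 + (1)*X^8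
          + (1)*X^9) + C 3 * ((7) + (12)*X + (9)*X^2) := by
      have : Fact (Nat.Prime 13) := ⟨by norm_num⟩
      rw [cyclotomic_prime]
      simp only [Finset.sum_range_succ, Finset.sum_range_zero, map_ofNat]
      ring
    have hC : (C ((Int.castRingHom (ZMod 3)) 3) : (ZMod 3)[X]) = 0 := by
      rw [show (Int.castRingHom (ZMod 3)) 3 = 0 from by decide, C_0]
    refine ⟨((20) + (15)*X + (11)*X^2 + (8)*X^3 + (6)*X^4 + (4)*X^5 + (3)*X^6 + (2)*X^7 + (1)*X^8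
          + (1)*X^9 : ℤ[X]).map (Int.castRingHom (ZMod 3)), ?_⟩
    rw [← map_cyclotomic_int, hZ, Polynomial.map_add, Polynomial.map_mul, Polynomial.map_mul,
      map_C, hC, zero_mul, add_zero]

theorem thirteen_pid : IsPrincipalIdealRing (𝓞 K) := by
  have : Fact (Nat.Prime 13) := ⟨by norm_num⟩
  have : IsGalois ℚ K := IsCyclotomicExtension.isGalois {13} ℚ K
  apply isPrincipalIdealRing_of_isPrincipal_of_lt_or_isPrincipal_of_mem_primesOver_of_mem_Icc
  intro q hq hqprime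
  have hM := Nat.lt_succ_iff.mp ((Nat.floor_lt' (by norm_num)).mpr (minkowski_thirteen_lt K))
  have hq306 : q ≤ 306 := (Finset.mem_Icc.mp hq).2.trans hM
  have : Fact q.Prime := ⟨hqprime⟩
  set ζ : 𝓞 K := (zeta_spec 13 ℚ K).toInteger with hζdef
  have hsum : 1 + ζ + ζ ^ 2 + ζ ^ 3 + ζ ^ 4 + ζ ^ 5 + ζ ^ 6 + ζ ^ 7 + ζ ^ 8 + ζ ^ 9 + ζ ^ 10
      + ζ ^ 11 + ζ ^ 12 = 0 := by
    have h := (zeta_spec 13 ℚ K).toInteger_isPrimitiveRoot.geom_sum_eq_zero (by norm_num)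
    simpa [Finset.sum_range_succ] using h
  by_cases h13 : q = 13
  · subst h13
    obtain ⟨P, hP, hprin⟩ := exists_principal_self 13 K
    exact ⟨P, hP, Or.inr hprin⟩
  by_cases h3 : q = 3
  · subst h3
    obtain ⟨hmonic, hirr, hdvd⟩ := cubic_factor_thirteen_three
    have haev : aeval ζ (X ^ 3 - (X + 1) : ℤ[X]) = ζ ^ 3 - (ζ + 1) := by simp
    obtain ⟨P, hP, hprin⟩ := exists_principal_of_generator_factor 13 3 K _ hmonic hirr hdvd
      (1 + ζ - ζ ^ 3)
      ((-1) + (-1)*ζ^2 + (-1)*ζ^3 + (-2)*ζ^5 + (-1)*ζ^7 + (-2)*ζ^8 + (1)*ζ^9 + (-3)*ζ^10)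
      (-1) 0 (-1)
      (by push_cast; linear_combination ((-4) + (3)*ζ) * hsum)
      (by rw [← hζdef, haev]; ring)
      (by rw [← hζdef, haev]; ring)
    exact ⟨P, hP, Or.inr hprin⟩
  by_cases h53 : q = 53
  · subst h53
    obtain ⟨P, hP, hprin⟩ := exists_principal_of_generator 13 53 K (-17) root_thirteen_53
      ((1) + (1)*ζ + (1)*ζ^3)
      ((1) + (-24)*ζ + (-35)*ζ^2 + (-25)*ζ^3 + (-10)*ζ^4 + (-14)*ζ^5 + (-20)*ζ^6 + (-29)*ζ^7
        + (-16)*ζ^8 + (-23)*ζ^9 + (-7)*ζ^10 + (-36)*ζ^11)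
      ((1) + (-7)*ζ + (-11)*ζ^2 + (-8)*ζ^3 + (-3)*ζ^4 + (-4)*ζ^5 + (-6)*ζ^6 + (-9)*ζ^7
        + (-5)*ζ^8 + (-7)*ζ^9 + (-2)*ζ^10 + (-11)*ζ^11)
      (-93) ((290) + (-17)*ζ + (1)*ζ^2)
      (by push_cast; linear_combination ((-52) + (29)*ζ + (-36)*ζ^2) * hsum)
      (by push_cast; linear_combination ((-16) + (9)*ζ + (-11)*ζ^2) * hsum)
      (by push_cast; ring)
    exact ⟨P, hP, Or.inr hprin⟩
  by_cases h79 : q = 79
  · subst h79
    obtain ⟨P, hP, hprin⟩ := exists_principal_of_generator 13 79 K (-15) root_thirteen_79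
      ((1) + (1)*ζ + (-1)*ζ^4)
      ((24) + (-25)*ζ + (-27)*ζ^2 + (10)*ζ^3 + (-3)*ζ^4 + (-39)*ζ^5 + (-5)*ζ^6 + (-2)*ζ^7
        + (-18)*ζ^8 + (-38)*ζ^9 + (16)*ζ^10 + (-35)*ζ^11)
      ((5) + (-4)*ζ + (-5)*ζ^2 + (2)*ζ^3 + (-7)*ζ^5 + (-1)*ζ^6 + (-3)*ζ^8 + (-7)*ζ^9
        + (3)*ζ^10 + (-6)*ζ^11)
      (-641) ((3376) + (-225)*ζ + (15)*ζ^2 + (-1)*ζ^3)
      (by push_cast; linear_combination ((-55) + (54)*ζ + (-51)*ζ^2 + (35)*ζ^3) * hsum)
      (by push_cast; linear_combination ((-10) + (10)*ζ + (-9)*ζ^2 + (6)*ζ^3) * hsum)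
      (by push_cast; ring)
    exact ⟨P, hP, Or.inr hprin⟩
  by_cases h131 : q = 131
  · subst h131
    obtain ⟨P, hP, hprin⟩ := exists_principal_of_generator 13 131 K (-51) root_thirteen_131
      ((1) + (-1)*ζ + (-1)*ζ^3)
      ((111) + (78)*ζ + (17)*ζ^2 + (67)*ζ^3 + (84)*ζ^4 + (40)*ζ^5 + (46)*ζ^6 + (69)*ζ^7
        + (48)*ζ^8 + (33)*ζ^9 + (41)*ζ^10 + (28)*ζ^11)
      ((43) + (31)*ζ + (7)*ζ^2 + (26)*ζ^3 + (33)*ζ^4 + (16)*ζ^5 + (18)*ζ^6 + (27)*ζ^7
        + (19)*ζ^8 + (13)*ζ^9 + (16)*ζ^10 + (11)*ζ^11)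
      (1013) ((-2602) + (51)*ζ + (-1)*ζ^2)
      (by push_cast; linear_combination ((-20) + (-13)*ζ + (-28)*ζ^2) * hsum)
      (by push_cast; linear_combination ((-8) + (-5)*ζ + (-11)*ζ^2) * hsum)
      (by push_cast; ring)
    exact ⟨P, hP, Or.inr hprin⟩
  by_cases h157 : q = 157
  · subst h157
    obtain ⟨P, hP, hprin⟩ := exists_principal_of_generator 13 157 K (75) root_thirteen_157
      ((1) + (-1)*ζ + (1)*ζ^2 + (1)*ζ^4)
      ((89) + (86)*ζ + (42)*ζ^2 + (77)*ζ^3 + (67)*ζ^4 + (25)*ζ^5 + (37)*ζ^6 + (56)*ζ^7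
        + (73)*ζ^8 + (113)*ζ^9 + (124)*ζ^10 + (76)*ζ^11)
      ((-43) + (-41)*ζ + (-20)*ζ^2 + (-37)*ζ^3 + (-32)*ζ^4 + (-12)*ζ^5 + (-18)*ζ^6 + (-27)*ζ^7
        + (-35)*ζ^8 + (-54)*ζ^9 + (-59)*ζ^10 + (-36)*ζ^11)
      (201568) ((421949) + (5626)*ζ + (75)*ζ^2 + (1)*ζ^3)
      (by push_cast; linear_combination ((-68) + (65)*ζ + (48)*ζ^2 + (76)*ζ^3) * hsum)
      (by push_cast; linear_combination ((32) + (-31)*ζ + (-23)*ζ^2 + (-36)*ζ^3) * hsum)
      (by push_cast; ring)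
    exact ⟨P, hP, Or.inr hprin⟩
  · obtain ⟨P, hP, hdeg⟩ := exists_inertiaDeg_eq 13 q K h13
    refine ⟨P, hP, Or.inl ?_⟩
    rw [hdeg]
    exact lt_of_le_of_lt hM
      (order_bound_thirteen q hqprime hq306 h13 h3 h53 h79 h131 h157)

end thirteen

end Fermat.Agent.S11_helper16
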